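import Mathlib
import Fermat.Agent.S28.Alg.H18_QepbPoly
import Fermat.Agent.S18x.Spec.H26_Charts

/-!
# S34 / package SAT (helper21): saturation of the three charts, abstract form

`O` an integrally closed domain, `π : O` a prime element, `F` a field, `j : F` transcendental
over `O`.  `h21_locFrac π hπ j` is the subring `O[j]_(π)` of `F` (fractions `a(j) / b(j)`,
`a, b ∈ O[X]`, `π ∤ b`; the predicate `H18.IsLocFrac` of S28).

For EVERY subring `V` of `F` all of whose elements are integral over `O[j]_(π)` (INT), the three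
charts (the integral closures of `O[j]`, `O[1/j]`, `O[j, 1/j]` in `F`) are saturated in `V`:
`v ∈ V`, `π v ∈ B ⟹ v ∈ B`.  These are VERBATIM the hypotheses `hsat₁`, `hsat₂`, `hsat₁₂` of
`Spec.H26.h26_spec`.

(INT) is stable under the ring operations (`h21_int_closure`: it only has to be checked on
generators), holds for the elements integral over `O[j]` (`h21_int_of_adjoin`) and is transported
by algebra homomorphisms (`h21_int_map`).
-/

set_option autoImplicit false
set_option linter.unusedSectionVars false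
set_option linter.style.haveILetI false

open Polynomial

namespace Fermat.Agent.S34x.Sat.H21

open Fermat.Agent.S28.Alg Fermat.Agent.S18x.Spec.H26

section LocFrac

variable {R F : Type*} [CommRing R] [Field F] [Algebra R F]

/-- The subring `R[t]_(l)` of `F`: the fractions `a(t) / b(t)` with `a, b ∈ R[X]`,
`b ∉ l R[X]`. -/
def h21_locFrac (l : R) (hl : Prime l) (t : F) : Subring F where
  carrier := {c | H18.IsLocFrac l t c}
  mul_mem' := fun hc hd => H18.IsLocFrac.mul hl hc hd
  one_mem' := by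
    have h := H18.isLocFrac_algebraMap (F := F) l hl.not_isUnit t 1
    rwa [map_one] at h
  add_mem' := fun hc hd => H18.IsLocFrac.add hl hc hd
  zero_mem' := by
    have h := H18.isLocFrac_algebraMap (F := F) l hl.not_isUnit t 0
    rwa [map_zero] at h
  neg_mem' := by
    rintro c ⟨a, b, hb, h⟩
    refine ⟨-a, b, hb, ?_⟩
    rw [map_neg, ← h, neg_mul]

theorem h21_mem_locFrac {l : R} {hl : Prime l} {t c : F} :
    c ∈ h21_locFrac l hl t ↔ H18.IsLocFrac l t c := Iff.rfl

theorem h21_algebraMap_mem_locFrac (l : R) (hl : Prime l) (t : F) (r : R) :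
    algebraMap R F r ∈ h21_locFrac l hl t :=
  H18.isLocFrac_algebraMap l hl.not_isUnit t r

theorem h21_adjoin_le_locFrac (l : R) (hl : Prime l) (t : F) {c : F}
    (hc : c ∈ Algebra.adjoin R {t}) : c ∈ h21_locFrac l hl t :=
  H18.isLocFrac_of_mem_adjoin l hl.not_isUnit t hc

theorem h21_self_mem_locFrac (l : R) (hl : Prime l) (t : F) : t ∈ h21_locFrac l hl t :=
  H18.isLocFrac_self l hl.not_isUnit t

/-- `R[t]_(l) = R[1/t]_(l)`. -/
theorem h21_locFrac_inv (l : R) (hl : Prime l) {t : F} (ht : t ≠ 0) :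
    h21_locFrac l hl t⁻¹ = h21_locFrac l hl t := by
  ext c
  exact H18.isLocFrac_inv_iff ht

/-- Integrality over a subring of `F`, in terms of a monic polynomial over `F`. -/
theorem h21_isIntegral_subring_iff (A : Subring F) (z : F) :
    IsIntegral A z ↔ ∃ p : F[X], p.Monic ∧ (∀ i, p.coeff i ∈ A) ∧ p.eval z = 0 := by
  constructor
  · rintro ⟨P, hP, hz⟩
    refine ⟨P.map (algebraMap A F), hP.map _, fun i => ?_, ?_⟩
    · rw [coeff_map]
      exact (P.coeff i).2
    · rw [eval_map]
      exact hz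
  · rintro ⟨p, hp, hcoeff, hz⟩
    have hlift : p ∈ lifts (algebraMap A F) := by
      rw [lifts_iff_coeff_lifts]
      intro n
      exact ⟨⟨p.coeff n, hcoeff n⟩, rfl⟩
    obtain ⟨q, hq, -, hqm⟩ := lifts_and_natDegree_eq_and_monic hlift hp
    refine ⟨q, hqm, ?_⟩
    rw [← eval_map, hq]
    exact hz

/-- (INT) for the elements integral over `R[t]`. -/
theorem h21_int_of_adjoin (l : R) (hl : Prime l) (t : F) {y : F}
    (hy : IsIntegral (Algebra.adjoin R {t}) y) : IsIntegral (h21_locFrac l hl t) y := by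
  obtain ⟨p, hp, hcoeff, hz⟩ := (h26_isIntegral_iff _ y).mp hy
  exact (h21_isIntegral_subring_iff _ y).mpr
    ⟨p, hp, fun i => h21_adjoin_le_locFrac l hl t (hcoeff i), hz⟩

/-- (INT) for the elements of `R[t]_(l)`. -/
theorem h21_int_of_mem (l : R) (hl : Prime l) (t : F) {y : F}
    (hy : y ∈ h21_locFrac l hl t) : IsIntegral (h21_locFrac l hl t) y := by
  have := isIntegral_algebraMap (R := h21_locFrac l hl t) (A := F) (x := ⟨y, hy⟩)
  exact this

/-- (INT) is stable under the ring operations: it holds on the subring generated by a set on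
which it holds. -/
theorem h21_int_closure (l : R) (hl : Prime l) (t : F) (S : Set F)
    (hS : ∀ s ∈ S, IsIntegral (h21_locFrac l hl t) s) :
    ∀ v ∈ Subring.closure S, IsIntegral (h21_locFrac l hl t) v := by
  intro v hv
  induction hv using Subring.closure_induction with
  | mem x hx => exact hS x hx
  | zero => exact isIntegral_zero
  | one => exact isIntegral_one
  | add x y _ _ hx hy => exact hx.add hy
  | neg x _ hx => exact hx.neg
  | mul x y _ _ hx hy => exact hx.mul hy

/-- (INT) is transported by homomorphisms of `R`-algebras. -/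
theorem h21_int_map {F₁ : Type*} [Field F₁] [Algebra R F₁] (φ : F₁ →ₐ[R] F)
    (l : R) (hl : Prime l) (t₁ : F₁) {y : F₁}
    (hy : IsIntegral (h21_locFrac l hl t₁) y) :
    IsIntegral (h21_locFrac l hl (φ t₁)) (φ y) := by
  obtain ⟨p, hp, hcoeff, hz⟩ := (h21_isIntegral_subring_iff _ y).mp hy
  refine (h21_isIntegral_subring_iff _ _).mpr
    ⟨p.map (φ : F₁ →+* F), hp.map _, fun i => ?_, ?_⟩
  · rw [coeff_map]
    obtain ⟨a, b, hb, h⟩ := hcoeff i
    refine ⟨a, b, hb, ?_⟩
    show φ (p.coeff i) * aeval (φ t₁) b = aeval (φ t₁) a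
    rw [aeval_algHom_apply, aeval_algHom_apply, ← map_mul, h]
  · rw [eval_map]
    have h1 : eval₂ (φ : F₁ →+* F) (φ y) p = (φ : F₁ →+* F) (eval y p) :=
      Polynomial.eval₂_at_apply (φ : F₁ →+* F) y
    rw [h1, hz, map_zero]

end LocFrac

section Sat

variable {O F : Type*} [CommRing O] [IsDomain O] [IsIntegrallyClosed O] [Field F] [Algebra O F]

/-- **The core**: if `y` is integral over `O[j]_(π)` and `π y` is integral over `O[j]`, then
`y` is integral over `O[j]`. -/
theorem h21_sat_core {j : F} (hj : Function.Injective (aeval (R := O) j)) {π : O}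
    (hπ : Prime π) {y : F} (hy : IsIntegral (h21_locFrac π hπ j) y)
    (hx : IsIntegral (Algebra.adjoin O {j}) (algebraMap O F π * y)) :
    IsIntegral (Algebra.adjoin O {j}) y := by
  obtain ⟨p, hp, hcoeff, hz⟩ := (h21_isIntegral_subring_iff _ y).mp hy
  exact H18.isIntegral_adjoin_of_isLocFrac hj hπ hx rfl p hp hz hcoeff

variable (π : O) (hπ : Prime π) (j j' : F) (hjj' : j * j' = 1) (hj : Transcendental O j)
  (V : Subring F) (hint : ∀ v ∈ V, IsIntegral (h21_locFrac π hπ j) v)

include hj hint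

/-- **(SAT₁)**: VERBATIM the hypothesis `hsat₁` of `Spec.H26.h26_spec`. -/
theorem h21_sat₁ :
    ∀ v ∈ V, algebraMap O F π * v ∈ chart O j → v ∈ chart O j := by
  intro v hv hx
  exact h21_sat_core (transcendental_iff_injective.mp hj) hπ (hint v hv) hx

include hjj'

/-- **(SAT₂)**: VERBATIM the hypothesis `hsat₂` of `Spec.H26.h26_spec`. -/
theorem h21_sat₂ :
    ∀ v ∈ V, algebraMap O F π * v ∈ chart O j' → v ∈ chart O j' := by
  intro v hv hx
  have hj0 : j ≠ 0 := left_ne_zero_of_mul_eq_one hjj'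
  have hj' : j' = j⁻¹ := eq_inv_of_mul_eq_one_right hjj'
  subst hj'
  have h1 : IsIntegral (h21_locFrac π hπ j⁻¹) v := by
    rw [h21_locFrac_inv π hπ hj0]
    exact hint v hv
  exact h21_sat_core (H18.injective_aeval_inv hj0 (transcendental_iff_injective.mp hj)) hπ h1 hx

/-- **(SAT₁₂)**: VERBATIM the hypothesis `hsat₁₂` of `Spec.H26.h26_spec`. -/
theorem h21_sat₁₂ (hjV : j ∈ V) :
    ∀ v ∈ V, algebraMap O F π * v ∈ chart₁₂ O j j' → v ∈ chart₁₂ O j j' := by
  intro v hv hx
  have hj0 : j ≠ 0 := left_ne_zero_of_mul_eq_one hjj'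
  have hj'0 : j' ≠ 0 := right_ne_zero_of_mul_eq_one hjj'
  obtain ⟨n, hn⟩ := h26_chart_scale₁₂ O hjj' _ hx
  have h1 : j ^ n * (algebraMap O F π * v) = algebraMap O F π * (j ^ n * v) := by ring
  rw [h1] at hn
  have h2 : j ^ n * v ∈ chart O j :=
    h21_sat₁ π hπ j hj V hint _ (mul_mem (pow_mem hjV n) hv) hn
  have h3 : v = j' ^ n * (j ^ n * v) := by
    rw [← mul_assoc, ← mul_pow, mul_comm j' j, hjj', one_pow, one_mul]
  rw [h3]
  refine mul_mem (pow_mem ?_ n) (chart_le_chart₁₂_left O _ _ h2)
  exact chart_le_chart₁₂_right O _ _ (self_mem_chart O _)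

end Sat

end Fermat.Agent.S34x.Sat.H21
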