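import Mathlib
import Fermat.Agent.S34x.Sat.H21_SatAbs
import Fermat.Agent.S18x.Qepo.H1_Sat
import Fermat.Agent.S37x.Kron.H2_Kron

/-!
# S34 / package SAT (helper21): the generators of the two-component ring are integral over
`O[j]_(π)`, and the three saturation statements at level `N`, `M ∣ N`

`K` a field of characteristic `0`, `O : ValuationSubring K` a discrete valuation ring with
uniformiser `π` and residue characteristic `ℓ`, `ℓ ∤ M`, `M ∣ N` (in the application `N = ℓ M`).
`F_N = modularFunctionFieldFullC K N ⊇ F_M`, `j = jbFull K N`.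

* `h21_int_levelM` : every element of `F_M` lying in the Gauss ring, seen in `F_N`, is integral
  over `O[j]_(π)` (helper1's level-`M` basis argument, transported);
* `h21_isIntegral_jp`, `h21_int_jp` : `j(q^p) ∈ F_N` (`p` prime, `p ∣ N`) is integral over `O[j]`
  (the modular equation of level `p` over `ℤ`), hence over `O[j]_(π)`;
* `h21_int_gen` : (INT) on the subring of `F_N` generated by `F_M ∩ (Gauss ring)` and the
  `j(q^p)`;
* `h21_sat_inst₁`, `h21_sat_inst₂`, `h21_sat_inst₁₂` : for EVERY subring `V` of `F_N` contained in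
  that subring, the hypotheses `hsat₁`, `hsat₂`, `hsat₁₂` of `Spec.H26.h26_spec` VERBATIM
  (with `j' = j⁻¹`).
-/

set_option autoImplicit false
set_option linter.unusedSectionVars false
set_option linter.style.haveILetI false

open ModularCurve Polynomial

noncomputable section

namespace Fermat.Agent.S34x.Sat.H21

open Fermat.Agent.S18x.Dict.H20 Fermat.Agent.S28.Asm Fermat.Agent.S28.Alg
  Fermat.Agent.S18x.Spec.H26 Fermat.Agent.S18x.Qepo

variable {K : Type} [Field K] [CharZero K] (O : ValuationSubring K)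
  [IsDiscreteValuationRing O] (π : O) (hπ : Irreducible π)
  (M N : ℕ) [NeZero M] [NeZero N] (hMN : M ∣ N)
  [Algebra O (FM K M)] [IsScalarTower O K (FM K M)]
  [Algebra O (FM K N)] [IsScalarTower O K (FM K N)]

/-- The inclusion `F_M → F_N`, as a homomorphism of `O`-algebras. -/
def h21_incl : FM K M →ₐ[O] FM K N where
  toFun x := ⟨(x : LaurentSeries K), full_degeneracyC_le K hMN x.2⟩
  map_one' := rfl
  map_mul' _ _ := rfl
  map_zero' := rfl
  map_add' _ _ := rfl
  commutes' c := by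
    apply Subtype.ext
    show ((algebraMap O (FM K M) c : FM K M) : LaurentSeries K) =
      ((algebraMap O (FM K N) c : FM K N) : LaurentSeries K)
    rw [IsScalarTower.algebraMap_apply O K (FM K M),
      IsScalarTower.algebraMap_apply O K (FM K N)]
    rfl

omit [CharZero K] [IsDiscreteValuationRing O] in
theorem h21_incl_coe (x : FM K M) :
    ((h21_incl O M N hMN x : FM K N) : LaurentSeries K) = (x : LaurentSeries K) :=
  Subtype.coe_mk (x : LaurentSeries K) (full_degeneracyC_le K hMN x.2)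

omit [CharZero K] [IsDiscreteValuationRing O] in
theorem h21_incl_j : h21_incl O M N hMN (jbFull K M) = jbFull K N := Subtype.ext rfl

include hπ hMN

/-- **(INT) on `F_M ∩ V`**: every element of `F_N` which lies in `F_M` and in the Gauss ring is
integral over `O[j]_(π)`. -/
theorem h21_int_levelM (ℓ : ℕ) [Fact ℓ.Prime] [CharP (Kp O) ℓ] (hℓM : ¬ ℓ ∣ M)
    (y : FM K N) (hyM : (y : LaurentSeries K) ∈ modularFunctionFieldFullC K M)
    (hyV : (y : LaurentSeries K) ∈ gaussRing O) :
    IsIntegral (h21_locFrac π hπ.prime (jbFull K N)) y := by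
  obtain ⟨P, hP, hroot, hc⟩ :=
    exists_monic_isLocFrac O π hπ M ℓ hℓM (x := (⟨(y : LaurentSeries K), hyM⟩ : FM K M)) hyV
  have h1 : IsIntegral (h21_locFrac π hπ.prime (jbFull K M))
      (⟨(y : LaurentSeries K), hyM⟩ : FM K M) :=
    (h21_isIntegral_subring_iff _ _).mpr ⟨P, hP, hc, hroot⟩
  have h2 := h21_int_map (h21_incl O M N hMN) π hπ.prime (jbFull K M) h1
  rw [h21_incl_j] at h2
  have h3 : h21_incl O M N hMN (⟨(y : LaurentSeries K), hyM⟩ : FM K M) = y :=
    Subtype.ext rfl
  rwa [h3] at h2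

omit hMN [NeZero M] [Algebra O (FM K M)] [IsScalarTower O K (FM K M)] [CharZero K]
  [IsDiscreteValuationRing O] hπ in
/-- `j(q^p)` is integral over `O[j]` in `F_N`, for every prime `p ∣ N`. -/
theorem h21_isIntegral_jp (p : ℕ) [NeZero p] (hp : p.Prime) (hpN : p ∣ N) :
    IsIntegral (Algebra.adjoin O {jbFull K N}) (jbdFull K N p hpN) := by
  set A := Algebra.adjoin O {jbFull K N} with hA
  set j' : A := ⟨jbFull K N, Algebra.subset_adjoin (Set.mem_singleton _)⟩ with hj'
  set Φ := Fermat.Agent.S37x.Kron.H2.h2kronPhi p hp with hΦ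
  have hm : Φ.Monic := Fermat.Agent.S37x.Kron.H2.h2kronPhi_monic p hp
  refine ⟨Φ.map (Polynomial.eval₂RingHom (Int.castRingHom A) j'), hm.map _, ?_⟩
  rw [Polynomial.eval₂_map]
  have hcomp : (algebraMap A (FM K N)).comp (Polynomial.eval₂RingHom (Int.castRingHom A) j')
      = Polynomial.eval₂RingHom (Int.castRingHom (FM K N)) (jbFull K N) := by
    apply Polynomial.ringHom_ext
    · intro n
      simp
    · simp [hj']
  rw [hcomp]
  have h1 : Fermat.Agent.S28.Deg.H9.ev2 Φ (jbdFull K N p hpN) (jbFull K N) = 0 := by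
    have hinj : Function.Injective (algebraMap (FM K N) (LaurentSeries K)) :=
      (algebraMap (FM K N) (LaurentSeries K)).injective
    apply hinj
    rw [Fermat.Agent.S28.Deg.H9.ev2_hom, map_zero]
    exact Fermat.Agent.S37x.Kron.H2.h2kronPhi_rel₁ p hp K
  exact h1

omit hMN [NeZero M] [Algebra O (FM K M)] [IsScalarTower O K (FM K M)] [CharZero K] in
/-- **(INT) for `j(q^p)`**. -/
theorem h21_int_jp (p : ℕ) [NeZero p] (hp : p.Prime) (hpN : p ∣ N) :
    IsIntegral (h21_locFrac π hπ.prime (jbFull K N)) (jbdFull K N p hpN) :=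
  h21_int_of_adjoin π hπ.prime _ (h21_isIntegral_jp O N p hp hpN)

omit hMN hπ [NeZero M] [Algebra O (FM K M)] [IsScalarTower O K (FM K M)] [CharZero K]
  [IsDiscreteValuationRing O] in
/-- `j` is transcendental over `O` (the hypothesis `hj` of `Spec.H26.h26_spec`). -/
theorem h21_transcendental_j : Transcendental O (jbFull K N) :=
  transcendental_iff_injective.mpr (injective_aeval_jbFull O N)

/-- The generators: `F_M ∩ (Gauss ring)` and the `j(q^p)`, `p` prime, `p ∣ N`. -/
def h21_gens : Set (FM K N) :=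
  {y | (y : LaurentSeries K) ∈ modularFunctionFieldFullC K M ∧
      (y : LaurentSeries K) ∈ gaussRing O} ∪
    {y | ∃ (p : ℕ) (_ : NeZero p) (_ : p.Prime) (hpN : p ∣ N), y = jbdFull K N p hpN}

/-- **(INT)** on the subring generated by `F_M ∩ (Gauss ring)` and the `j(q^p)`. -/
theorem h21_int_gen (ℓ : ℕ) [Fact ℓ.Prime] [CharP (Kp O) ℓ] (hℓM : ¬ ℓ ∣ M) :
    ∀ v ∈ Subring.closure (h21_gens O M N),
      IsIntegral (h21_locFrac π hπ.prime (jbFull K N)) v := by
  refine h21_int_closure π hπ.prime _ _ ?_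
  rintro s (⟨hsM, hsV⟩ | ⟨p, hp0, hp, hpN, rfl⟩)
  · exact h21_int_levelM O π hπ M N hMN ℓ hℓM s hsM hsV
  · exact h21_int_jp O π hπ N p hp hpN

section Sat

variable (ℓ : ℕ) [Fact ℓ.Prime] [CharP (Kp O) ℓ] (hℓM : ¬ ℓ ∣ M)
  (V : Subring (FM K N)) (hV : V ≤ Subring.closure (h21_gens O M N))

include hℓM hV

/-- **(SAT₁) at level `N`**: VERBATIM the hypothesis `hsat₁` of `Spec.H26.h26_spec`. -/
theorem h21_sat_inst₁ :
    ∀ v ∈ V, algebraMap O (FM K N) π * v ∈ chart O (jbFull K N) → v ∈ chart O (jbFull K N) :=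
  h21_sat₁ π hπ.prime (jbFull K N)
    (transcendental_iff_injective.mpr (injective_aeval_jbFull O N)) V
    (fun v hv => h21_int_gen O π hπ M N hMN ℓ hℓM v (hV hv))

/-- **(SAT₂) at level `N`**: VERBATIM the hypothesis `hsat₂` of `Spec.H26.h26_spec`
(with `j' = j⁻¹`). -/
theorem h21_sat_inst₂ :
    ∀ v ∈ V, algebraMap O (FM K N) π * v ∈ chart O (jbFull K N)⁻¹ →
      v ∈ chart O (jbFull K N)⁻¹ :=
  h21_sat₂ π hπ.prime (jbFull K N) (jbFull K N)⁻¹ (mul_inv_cancel₀ (jbFull_ne_zero N))
    (transcendental_iff_injective.mpr (injective_aeval_jbFull O N)) V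
    (fun v hv => h21_int_gen O π hπ M N hMN ℓ hℓM v (hV hv))

/-- **(SAT₁₂) at level `N`**: VERBATIM the hypothesis `hsat₁₂` of `Spec.H26.h26_spec`
(with `j' = j⁻¹`). -/
theorem h21_sat_inst₁₂ (hjV : jbFull K N ∈ V) :
    ∀ v ∈ V, algebraMap O (FM K N) π * v ∈ chart₁₂ O (jbFull K N) (jbFull K N)⁻¹ →
      v ∈ chart₁₂ O (jbFull K N) (jbFull K N)⁻¹ :=
  h21_sat₁₂ π hπ.prime (jbFull K N) (jbFull K N)⁻¹ (mul_inv_cancel₀ (jbFull_ne_zero N))
    (transcendental_iff_injective.mpr (injective_aeval_jbFull O N)) V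
    (fun v hv => h21_int_gen O π hπ M N hMN ℓ hℓM v (hV hv)) hjV

end Sat

end Fermat.Agent.S34x.Sat.H21
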