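import Mathlib
import Fermat.Agent.S34x.Sat.H21_SatInst
import Fermat.Agent.S18x.IG.H10_SatInst

/-!
# S34 / package SAT (helper21): saturation of the Hauptmodul charts at level `N`, `M ∣ N`

`K` a field of characteristic `0`, `O : ValuationSubring K` a discrete valuation ring with
uniformiser `π₀` and residue characteristic `ℓ`, `ℓ ∤ M`, `M ∣ N` (in the application `N = M ℓ`),
`F = modularFunctionFieldFullC K N`.  `V` is ANY subring of `F` contained in the subring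
generated by `F_M ∩ (Gauss ring)` and the `j(q^p)`, `p` prime, `p ∣ N` (`h21_gens`), e.g. the
two-component ring `V_M[j_ℓ]`.

For a coordinate `x = coordM K N x₀ hmem ∈ V` satisfying a Hauptmodul identity over `ℤ`
(`coord2`, `coord3` of S18x), the charts `chart O x`, `chart O x⁻¹`, `chart₁₂ O x x⁻¹` are
saturated in `V`: VERBATIM the hypotheses `hsat₁`, `hsat₂`, `hsat₁₂` of `Spec.H26.h26_spec`
(and of `Loc.H26.h26_ss_pow`) with `j := x`, `j' := x⁻¹`.

* `h21_sat_coordN` : generic form;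
* `h21_sat_coord2` (`2 ∣ N`, `ℓ ≠ 2`), `h21_sat_coord3` (`3 ∣ N`, `ℓ ≠ 3`).
-/

set_option autoImplicit false
set_option linter.unusedSectionVars false
set_option linter.unusedVariables false
set_option linter.style.haveILetI false
set_option synthInstance.maxHeartbeats 400000
set_option maxHeartbeats 1000000

open ModularCurve Polynomial

noncomputable section

namespace Fermat.Agent.S34x.Sat.H21

open Fermat.Agent.S18x.Dict.H20 Fermat.Agent.S18x.Spec.H26 Fermat.Agent.S28.Asm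
  Fermat.Agent.S18x.IG.H29 Fermat.Agent.S18x.IG.H28 Fermat.Agent.S18x.IG.H10
  Fermat.Agent.S18x.Qepo

variable {K : Type} [Field K] [CharZero K] (O : ValuationSubring K)
  [IsDiscreteValuationRing O] (M N : ℕ) [NeZero M] [NeZero N] (hMN : M ∣ N)
  [Algebra O (FM K M)] [IsScalarTower O K (FM K M)]
  [Algebra O (FM K N)] [IsScalarTower O K (FM K N)]

include hMN

/-- **(SAT) at level `N`, generic form**: the three saturation statements for a coordinate
`x = coordM K N x₀ hmem` satisfying a Hauptmodul identity over `ℤ`, in every subring `V` of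
`F_N` with `x ∈ V ≤ ⟨F_M ∩ (Gauss ring), j(q^p)⟩`. -/
theorem h21_sat_coordN (x₀ : LaurentSeries ℤ) (hord : x₀.order = -1)
    (hlead : x₀.coeff (-1) = 1)
    (hmem : coeffMap (Int.castRingHom K) x₀ ∈ modularFunctionFieldFullC K N)
    (N₀ D₀ : ℤ[X]) (hN : N₀.Monic) (hD : D₀.Monic) (hdeg : D₀.natDegree < N₀.natDegree)
    (hid : jqModC ℤ * aeval x₀ D₀ = aeval x₀ N₀) (hD0 : D₀.coeff 0 = 0)
    (hu : IsUnit ((N₀.coeff 0 : ℤ) : O))
    (π₀ : O) (hπ₀ : Irreducible π₀) (ℓ : ℕ) [Fact ℓ.Prime]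
    [CharP (IsLocalRing.ResidueField O) ℓ] (hℓM : ¬ ℓ ∣ M)
    (V : Subring (FM K N)) (hV : V ≤ Subring.closure (h21_gens O M N))
    (hxV : coordM K N x₀ hmem ∈ V) :
    (∀ v ∈ V, algebraMap O (FM K N) π₀ * v ∈ chart O (coordM K N x₀ hmem) →
        v ∈ chart O (coordM K N x₀ hmem)) ∧
    (∀ v ∈ V, algebraMap O (FM K N) π₀ * v ∈ chart O (coordM K N x₀ hmem)⁻¹ →
        v ∈ chart O (coordM K N x₀ hmem)⁻¹) ∧
    (∀ v ∈ V, algebraMap O (FM K N) π₀ * v ∈
        chart₁₂ O (coordM K N x₀ hmem) (coordM K N x₀ hmem)⁻¹ →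
        v ∈ chart₁₂ O (coordM K N x₀ hmem) (coordM K N x₀ hmem)⁻¹) := by
  obtain ⟨u, hu'⟩ := hu
  exact Fermat.Agent.S18x.Qepo.H2.h2sat_of_identity (O := O)
    (F := FM K N) (jbFull K N) (coordM K N x₀ hmem)
    (N₀.map (Int.castRingHom O)) (D₀.map (Int.castRingHom O)) V
    (transcendental_coordM_O O N x₀ hord hlead hmem) π₀ hπ₀.prime (hN.map _) (hD.map _)
    (by rw [hN.natDegree_map, hD.natDegree_map]; exact hdeg)
    (h10_identity_coordM O N x₀ hmem N₀ D₀ hid)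
    (by rw [coeff_map, hD0, map_zero])
    ((u⁻¹ : Oˣ) : O)
    (by rw [coeff_map, eq_intCast, ← hu']; exact Units.inv_mul u)
    hxV
    (h21_sat_inst₁ O π₀ hπ₀ M N hMN ℓ hℓM V hV)

/-- **(SAT) at level `N` for the level-`2` Hauptmodul** (`2 ∣ N`, residue characteristic
`ℓ ≠ 2`, `ℓ ∤ M`). -/
theorem h21_sat_coord2 (hN2 : 2 ∣ N) (π₀ : O) (hπ₀ : Irreducible π₀) (ℓ : ℕ)
    [Fact ℓ.Prime] [CharP (IsLocalRing.ResidueField O) ℓ] (hℓM : ¬ ℓ ∣ M) (hℓ2 : ℓ ≠ 2)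
    (V : Subring (FM K N)) (hV : V ≤ Subring.closure (h21_gens O M N))
    (hxV : coord2 K N hN2 ∈ V) :
    (∀ v ∈ V, algebraMap O (FM K N) π₀ * v ∈ chart O (coord2 K N hN2) →
        v ∈ chart O (coord2 K N hN2)) ∧
    (∀ v ∈ V, algebraMap O (FM K N) π₀ * v ∈ chart O (coord2 K N hN2)⁻¹ →
        v ∈ chart O (coord2 K N hN2)⁻¹) ∧
    (∀ v ∈ V, algebraMap O (FM K N) π₀ * v ∈
        chart₁₂ O (coord2 K N hN2) (coord2 K N hN2)⁻¹ →
        v ∈ chart₁₂ O (coord2 K N hN2) (coord2 K N hN2)⁻¹) :=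
  h21_sat_coordN O M N hMN h2 order_h2 coeff_h2_neg_one (h2_mem_full K N hN2) h10_N2 h10_D2
    h10_N2_monic h10_D2_monic (by rw [h10_natDegree_D2, h10_natDegree_N2]; norm_num)
    h10_identity_two h10_coeff_zero_D2
    (h10_isUnit_intCast O ℓ 16777216 (h10_not_dvd_two_pow Fact.out hℓ2) _
      (by rw [h10_coeff_zero_N2]; rfl))
    π₀ hπ₀ ℓ hℓM V hV hxV

/-- **(SAT) at level `N` for the level-`3` Hauptmodul** (`3 ∣ N`, residue characteristic
`ℓ ≠ 3`, `ℓ ∤ M`). -/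
theorem h21_sat_coord3 (hN3 : 3 ∣ N) (π₀ : O) (hπ₀ : Irreducible π₀) (ℓ : ℕ)
    [Fact ℓ.Prime] [CharP (IsLocalRing.ResidueField O) ℓ] (hℓM : ¬ ℓ ∣ M) (hℓ3 : ℓ ≠ 3)
    (V : Subring (FM K N)) (hV : V ≤ Subring.closure (h21_gens O M N))
    (hxV : coord3 K N hN3 ∈ V) :
    (∀ v ∈ V, algebraMap O (FM K N) π₀ * v ∈ chart O (coord3 K N hN3) →
        v ∈ chart O (coord3 K N hN3)) ∧
    (∀ v ∈ V, algebraMap O (FM K N) π₀ * v ∈ chart O (coord3 K N hN3)⁻¹ →
        v ∈ chart O (coord3 K N hN3)⁻¹) ∧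
    (∀ v ∈ V, algebraMap O (FM K N) π₀ * v ∈
        chart₁₂ O (coord3 K N hN3) (coord3 K N hN3)⁻¹ →
        v ∈ chart₁₂ O (coord3 K N hN3) (coord3 K N hN3)⁻¹) :=
  h21_sat_coordN O M N hMN h3 order_h3 coeff_h3_neg_one (h3_mem_full K N hN3) h10_N3 h10_D3
    h10_N3_monic h10_D3_monic (by rw [h10_natDegree_D3, h10_natDegree_N3]; norm_num)
    h10_identity_three h10_coeff_zero_D3
    (h10_isUnit_intCast O ℓ 387420489 (h10_not_dvd_three_pow Fact.out hℓ3) _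
      (by rw [h10_coeff_zero_N3]; rfl))
    π₀ hπ₀ ℓ hℓM V hV hxV

end Fermat.Agent.S34x.Sat.H21
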