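import Fermat.Agent.S18x.IG.H10_SatInst
import Fermat.Agent.S37x.Kron.H2_Kron

/-!
# S34 (W10), stage (B) SAT, the INSTANCE (helper1)

Setting: `K` a field of characteristic `0`, `O : ValuationSubring K` a discrete valuation ring
with uniformiser `π` and residue characteristic `ℓ`, levels `M ∣ N'` with `ℓ ∤ M`, a prime
`q ∣ N'` (in the application `N' = M q`, `ℓ = q`), `F = ↥(modularFunctionFieldFullC K N')`.

* `H1Int l t v` : `v` is a root of a monic polynomial over `F` whose coefficients are fractions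
  `a(t) / b(t)`, `a, b ∈ O[X]`, `l ∤ b` (i.e. `v` is integral over the Gauss ring `O[t]_(l)`);
* `h1LocFracRing l hl t` : the Gauss ring `O[t]_(l)` as a subring of `F`;
  `h1Int_iff_isIntegral`; `h1Int_of_mem_closure` : (INT) only has to be checked on generators;
* `h1_sat_of_int`, `h1_sat_inv_of_int`, `h1_sat₁₂_of_int` : (INT) on a subring `V` gives the
  three saturation statements for the charts of `t`;
* `h1_int_alpha` : (INT) for the elements of the Gauss valuation ring of level `M`, inside `F`;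
* `h1_int_jq` : (INT) for `j_q = j(q^q)` (Kronecker's modular equation);
* `h1Gen`, `h1V` : the generators and the ring `V_M[j_q]` inside `F`; `h1_int_V`;
* `h1_satJ`, `h1_sat_coordM`, `h1_sat_coord2`, `h1_sat_coord3` : the three saturation
  hypotheses of the abstract second-difference theorem for every subring `V ≤ V_M[j_q]`
  containing the coordinate.
-/

set_option autoImplicit false
set_option linter.unusedSectionVars false
set_option linter.unusedVariables false
set_option linter.style.haveILetI false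
set_option synthInstance.maxHeartbeats 400000
set_option maxHeartbeats 1000000

open ModularCurve Polynomial

noncomputable section

namespace Fermat.Agent.S34x.Sat.H1

open Fermat.Agent.S18x.Dict.H20 Fermat.Agent.S18x.Spec.H26 Fermat.Agent.S28.Asm
  Fermat.Agent.S28.Alg Fermat.Agent.S18x.Qepo Fermat.Agent.S18x.IG.H29
  Fermat.Agent.S18x.IG.H28

/-! ### The abstract part -/

section Abs

variable {R F : Type*} [CommRing R] [Field F] [Algebra R F]

/-- `v` is a root of a monic polynomial whose coefficients are fractions `a(t) / b(t)` with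
`a, b ∈ R[X]`, `l ∤ b`. -/
def H1Int (l : R) (t v : F) : Prop :=
  ∃ P : F[X], P.Monic ∧ P.eval v = 0 ∧ ∀ i, H18.IsLocFrac l t (P.coeff i)

/-- The Gauss ring `R[t]_(l)` as a subring of `F`. -/
def h1LocFracRing (l : R) (hl : Prime l) (t : F) : Subring F where
  carrier := {c | H18.IsLocFrac l t c}
  mul_mem' := fun hc hd => H18.IsLocFrac.mul hl hc hd
  add_mem' := fun hc hd => H18.IsLocFrac.add hl hc hd
  one_mem' := by
    have h := H18.isLocFrac_algebraMap l hl.not_isUnit t (1 : R)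
    rwa [map_one] at h
  zero_mem' := by
    have h := H18.isLocFrac_algebraMap l hl.not_isUnit t (0 : R)
    rwa [map_zero] at h
  neg_mem' := fun {c} hc => by
    have h := H18.isLocFrac_algebraMap l hl.not_isUnit t (-1 : R)
    have h2 := H18.IsLocFrac.mul hl h hc
    rw [map_neg, map_one, neg_one_mul] at h2
    exact h2

theorem mem_h1LocFracRing {l : R} (hl : Prime l) {t c : F} :
    c ∈ h1LocFracRing l hl t ↔ H18.IsLocFrac l t c := Iff.rfl

theorem h1Int_iff_isIntegral {l : R} (hl : Prime l) {t v : F} :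
    H1Int l t v ↔ IsIntegral (h1LocFracRing l hl t) v := by
  constructor
  · rintro ⟨P, hP, hroot, hc⟩
    have hlift : P ∈ Polynomial.lifts (algebraMap (h1LocFracRing l hl t) F) := by
      rw [Polynomial.lifts_iff_coeff_lifts]
      intro i
      exact ⟨⟨P.coeff i, hc i⟩, rfl⟩
    obtain ⟨P₀, hP₀, -, hP₀m⟩ := Polynomial.lifts_and_natDegree_eq_and_monic hlift hP
    refine ⟨P₀, hP₀m, ?_⟩
    rw [← Polynomial.eval_map, hP₀]
    exact hroot
  · rintro ⟨P₀, hP₀, hroot⟩
    refine ⟨P₀.map (algebraMap (h1LocFracRing l hl t) F), hP₀.map _, ?_, fun i => ?_⟩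
    · rw [Polynomial.eval_map]
      exact hroot
    · rw [Polynomial.coeff_map]
      exact (P₀.coeff i).2

/-- (INT) only has to be checked on generators. -/
theorem h1Int_of_mem_closure {l : R} (hl : Prime l) {t : F} (S : Set F)
    (hS : ∀ s ∈ S, H1Int l t s) : ∀ v ∈ Subring.closure S, H1Int l t v := by
  intro v hv
  rw [h1Int_iff_isIntegral hl]
  have hle : Subring.closure S ≤ (integralClosure (h1LocFracRing l hl t) F).toSubring := by
    rw [Subring.closure_le]
    intro s hs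
    exact (h1Int_iff_isIntegral hl).1 (hS s hs)
  exact hle hv

end Abs

section AbsSat

variable {R F : Type*} [CommRing R] [IsDomain R] [IsIntegrallyClosed R] [Field F] [Algebra R F]

/-- (INT) ⟹ (SAT₁). -/
theorem h1_sat_of_int {t : F} (ht : Function.Injective (aeval (R := R) t)) {l : R}
    (hl : Prime l) (V : Subring F) (hint : ∀ v ∈ V, H1Int l t v) :
    ∀ v ∈ V, algebraMap R F l * v ∈ chart R t → v ∈ chart R t := by
  intro v hv hx
  obtain ⟨P, hP, hroot, hc⟩ := hint v hv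
  exact H18.isIntegral_adjoin_of_isLocFrac ht hl hx rfl P hP hroot hc

/-- (INT) ⟹ (SAT₂). -/
theorem h1_sat_inv_of_int {t : F} (ht0 : t ≠ 0) (ht : Function.Injective (aeval (R := R) t))
    {l : R} (hl : Prime l) (V : Subring F) (hint : ∀ v ∈ V, H1Int l t v) :
    ∀ v ∈ V, algebraMap R F l * v ∈ chart R t⁻¹ → v ∈ chart R t⁻¹ := by
  intro v hv hx
  obtain ⟨P, hP, hroot, hc⟩ := hint v hv
  exact H18.isIntegral_adjoin_of_isLocFrac (H18.injective_aeval_inv ht0 ht) hl hx rfl P hP hroot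
    (fun i => (H18.isLocFrac_inv_iff ht0).mpr (hc i))

/-- (INT) ⟹ (SAT₁₂). -/
theorem h1_sat₁₂_of_int {t : F} (ht0 : t ≠ 0) (ht : Function.Injective (aeval (R := R) t))
    {l : R} (hl : Prime l) (V : Subring F) (htV : t ∈ V) (hint : ∀ v ∈ V, H1Int l t v) :
    ∀ v ∈ V, algebraMap R F l * v ∈ chart₁₂ R t t⁻¹ → v ∈ chart₁₂ R t t⁻¹ := by
  intro v hv hx
  have hjj' : t * t⁻¹ = 1 := mul_inv_cancel₀ ht0
  obtain ⟨n, hn⟩ := h26_chart_scale₁₂ R hjj' _ hx
  have h1 : t ^ n * (algebraMap R F l * v) = algebraMap R F l * (t ^ n * v) := by ring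
  rw [h1] at hn
  have h2 : t ^ n * v ∈ chart R t :=
    h1_sat_of_int ht hl V hint _ (mul_mem (pow_mem htV n) hv) hn
  have h3 : v = t⁻¹ ^ n * (t ^ n * v) := by
    rw [← mul_assoc, ← mul_pow, inv_mul_cancel₀ ht0, one_pow, one_mul]
  rw [h3]
  refine mul_mem (pow_mem ?_ n) (chart_le_chart₁₂_left R _ _ h2)
  exact chart_le_chart₁₂_right R _ _ (self_mem_chart R _)

end AbsSat

/-! ### The instance at level `N'` -/

variable {K : Type} [Field K] [CharZero K] (O : ValuationSubring K)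
  [IsDiscreteValuationRing O] (π : O) (hπ : Irreducible π) (M N' : ℕ) [NeZero M] [NeZero N']

section Alpha

variable [Algebra O (FM K N')] [IsScalarTower O K (FM K N')]

include hπ in
/-- **(INT) on `α(V_M)`**: an element of `F = F_{N'}` which lies in `F_M` and in the Gauss ring
is integral over the Gauss ring `O[j]_(π)` of `K(j)`. -/
theorem h1_int_alpha (hMN : M ∣ N') (ℓ : ℕ) [Fact ℓ.Prime] [CharP (Kp O) ℓ] (hℓM : ¬ ℓ ∣ M)
    {v : FM K N'} (hvM : (v : LaurentSeries K) ∈ modularFunctionFieldFullC K M)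
    (hvV : (v : LaurentSeries K) ∈ gaussRing O) : H1Int π (jbFull K N') v := by
  obtain ⟨P₀, hP₀, hroot⟩ := isIntegral_OvM O π hπ M ℓ hℓM (x := (⟨v, hvM⟩ : FM K M)) hvV
  -- the inclusion `F_M → F_{N'}`
  set ι : FM K M →+* FM K N' :=
    (IntermediateField.inclusion (full_degeneracyC_le K hMN)).toRingHom with hι
  have hιv : ι ⟨v, hvM⟩ = v := Subtype.ext rfl
  have hιc : ∀ c : FM K M, ((ι c : FM K N') : LaurentSeries K) = (c : LaurentSeries K) :=
    fun c => rfl
  refine ⟨(P₀.map (algebraMap (OvM O M) (FM K M))).map ι, (hP₀.map _).map _, ?_, fun i => ?_⟩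
  · rw [Polynomial.eval_map, ← hιv, Polynomial.eval₂_hom, Polynomial.eval_map]
    rw [show Polynomial.eval₂ (algebraMap (OvM O M) (FM K M)) (⟨v, hvM⟩ : FM K M) P₀ = 0
      from hroot, map_zero]
  · rw [Polynomial.coeff_map, Polynomial.coeff_map]
    have hc := (P₀.coeff i).2
    refine isLocFrac_of_mem O π hπ N' ?_ ?_
    · rw [hιc]
      exact hc.2
    · rw [hιc]
      exact hc.1

end Alpha

section Jq

variable [Algebra O (FM K N')] [IsScalarTower O K (FM K N')]

omit [CharZero K] [IsDiscreteValuationRing O] in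
/-- The value at `j` of an integral polynomial, over `O`. -/
theorem h1_eval₂_int (P₀ : ℤ[X]) :
    Polynomial.eval₂ (Int.castRingHom (FM K N')) (jbFull K N') P₀ =
      aeval (jbFull K N') (P₀.map (Int.castRingHom O)) := by
  rw [aeval_def, Polynomial.eval₂_map]
  congr 1
  exact RingHom.ext_int _ _

include hπ in
omit [CharZero K] [IsDiscreteValuationRing O] in
/-- **(INT) for `j_q`** (Kronecker): `j_q = j(q^q)` is a root of the modular polynomial
`Φ_q(X, j)`, monic with coefficients in `ℤ[j]`. -/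
theorem h1_int_jq (q : ℕ) [NeZero q] (hq : q.Prime) (hqN : q ∣ N') :
    H1Int π (jbFull K N') (jbdFull K N' q hqN) := by
  set Φ := Fermat.Agent.S37x.Kron.H2.h2kronPhi q hq with hΦ
  set ev : ℤ[X] →+* FM K N' :=
    Polynomial.eval₂RingHom (Int.castRingHom (FM K N')) (jbFull K N') with hev
  refine ⟨Φ.map ev, (Fermat.Agent.S37x.Kron.H2.h2kronPhi_monic q hq).map ev, ?_, fun i => ?_⟩
  · rw [Polynomial.eval_map]
    have h1 : Polynomial.eval₂ ev (jbdFull K N' q hqN) Φ =
        Fermat.Agent.S28.Deg.H9.ev2 Φ (jbdFull K N' q hqN) (jbFull K N') := rfl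
    rw [h1]
    have hinj : Function.Injective (algebraMap (FM K N') (LaurentSeries K)) :=
      (algebraMap (FM K N') (LaurentSeries K)).injective
    apply hinj
    rw [Fermat.Agent.S28.Deg.H9.ev2_hom, map_zero]
    exact Fermat.Agent.S37x.Kron.H2.h2kronPhi_rel₁ q hq K
  · rw [Polynomial.coeff_map]
    refine ⟨(Φ.coeff i).map (Int.castRingHom O), 1, ?_, ?_⟩
    · intro h
      have h1 : IsUnit (C π : O[X]) := isUnit_of_dvd_one h
      exact hπ.not_isUnit (Polynomial.isUnit_C.mp h1)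
    · rw [map_one, mul_one]
      exact h1_eval₂_int O N' (Φ.coeff i)

end Jq

/-! ### The ring `V_M[j_q]` inside `F_{N'}` -/

section V

/-- The generators of `V_M[j_q]` inside `F = F_{N'}`: the elements of `F_M` lying in the Gauss
ring, and `j_q`. -/
def h1Gen (q : ℕ) [NeZero q] (hqN : q ∣ N') : Set (FM K N') :=
  {v | (v : LaurentSeries K) ∈ modularFunctionFieldFullC K M ∧
      (v : LaurentSeries K) ∈ gaussRing O} ∪ {jbdFull K N' q hqN}

/-- The ring `V_M[j_q]` as a subring of `F = F_{N'}`. -/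
def h1V (q : ℕ) [NeZero q] (hqN : q ∣ N') : Subring (FM K N') :=
  Subring.closure (h1Gen O M N' q hqN)

omit [CharZero K] [IsDiscreteValuationRing O] [NeZero M] in
theorem h1_alpha_mem_V (q : ℕ) [NeZero q] (hqN : q ∣ N') {v : FM K N'}
    (hvM : (v : LaurentSeries K) ∈ modularFunctionFieldFullC K M)
    (hvV : (v : LaurentSeries K) ∈ gaussRing O) : v ∈ h1V O M N' q hqN :=
  Subring.subset_closure (Or.inl ⟨hvM, hvV⟩)

omit [CharZero K] [IsDiscreteValuationRing O] [NeZero M] in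
theorem h1_jq_mem_V (q : ℕ) [NeZero q] (hqN : q ∣ N') :
    jbdFull K N' q hqN ∈ h1V O M N' q hqN :=
  Subring.subset_closure (Or.inr rfl)

omit [CharZero K] [IsDiscreteValuationRing O] [NeZero M] in
theorem h1_j_mem_V (q : ℕ) [NeZero q] (hqN : q ∣ N') :
    jbFull K N' ∈ h1V O M N' q hqN :=
  h1_alpha_mem_V O M N' q hqN (jqModC_mem_full K M) (j_mem_gaussRing O)

/-- The coordinate `x` lies in `V_M[j_q]` (if it is a function of level `M`). -/
theorem h1_coordM_mem_V (q : ℕ) [NeZero q] (hqN : q ∣ N') (x₀ : LaurentSeries ℤ)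
    (hmem : coeffMap (Int.castRingHom K) x₀ ∈ modularFunctionFieldFullC K N')
    (hmemM : coeffMap (Int.castRingHom K) x₀ ∈ modularFunctionFieldFullC K M) :
    coordM K N' x₀ hmem ∈ h1V O M N' q hqN :=
  h1_alpha_mem_V O M N' q hqN hmemM (coeffMap_int_mem_gaussRing O x₀)

/-- The inverse of the coordinate lies in `V_M[j_q]`. -/
theorem h1_coordM_inv_mem_V (q : ℕ) [NeZero q] (hqN : q ∣ N') (x₀ : LaurentSeries ℤ)
    (hlead : x₀.coeff (-1) = 1)
    (hmem : coeffMap (Int.castRingHom K) x₀ ∈ modularFunctionFieldFullC K N')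
    (hmemM : coeffMap (Int.castRingHom K) x₀ ∈ modularFunctionFieldFullC K M) :
    (coordM K N' x₀ hmem)⁻¹ ∈ h1V O M N' q hqN := by
  have h1 := coordM_inv_mem_gaussValM O M x₀ hlead hmemM
  have h2 : (((coordM K N' x₀ hmem)⁻¹ : FM K N') : LaurentSeries K) =
      (coeffMap (Int.castRingHom K) x₀)⁻¹ := rfl
  refine h1_alpha_mem_V O M N' q hqN ?_ ?_
  · rw [h2]
    exact inv_mem hmemM
  · rw [h2]
    exact h1

variable [Algebra O (FM K N')] [IsScalarTower O K (FM K N')]

include hπ in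
/-- **(INT) on `V_M[j_q]`**: every element of `V_M[j_q]` is integral over the Gauss ring
`O[j]_(π)` of `K(j)`. -/
theorem h1_int_V (hMN : M ∣ N') (ℓ : ℕ) [Fact ℓ.Prime] [CharP (Kp O) ℓ] (hℓM : ¬ ℓ ∣ M)
    (q : ℕ) [NeZero q] (hq : q.Prime) (hqN : q ∣ N') :
    ∀ v ∈ h1V O M N' q hqN, H1Int π (jbFull K N') v := by
  refine h1Int_of_mem_closure hπ.prime _ ?_
  rintro s (⟨hsM, hsV⟩ | hs)
  · exact h1_int_alpha O π hπ M N' hMN ℓ hℓM hsM hsV
  · rw [Set.mem_singleton_iff] at hs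
    rw [hs]
    exact h1_int_jq O π hπ N' q hq hqN

include hπ in
/-- **(SAT) for the `j`-chart at level `N'`**, for every subring `V ≤ V_M[j_q]`. -/
theorem h1_satJ (hMN : M ∣ N') (ℓ : ℕ) [Fact ℓ.Prime] [CharP (Kp O) ℓ] (hℓM : ¬ ℓ ∣ M)
    (q : ℕ) [NeZero q] (hq : q.Prime) (hqN : q ∣ N')
    (V : Subring (FM K N')) (hV : V ≤ h1V O M N' q hqN) :
    ∀ v ∈ V, algebraMap O (FM K N') π * v ∈ chart O (jbFull K N') →
      v ∈ chart O (jbFull K N') :=
  h1_sat_of_int (injective_aeval_jbFull O N') hπ.prime V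
    (fun v hv => h1_int_V O π hπ M N' hMN ℓ hℓM q hq hqN v (hV hv))

include hπ in
/-- **(SAT) × 3 at level `N'`, generic Hauptmodul coordinate**: for every subring
`V ≤ V_M[j_q]` containing the coordinate `x = coordM K N' x₀ hmem`, the three charts of `x` are
saturated in `V`.  VERBATIM `hsat₁`, `hsat₂`, `hsat₁₂` of the abstract second-difference
theorem (with `j := x`, `j' := x⁻¹`). -/
theorem h1_sat_coordM (hMN : M ∣ N') (ℓ : ℕ) [Fact ℓ.Prime] [CharP (Kp O) ℓ] (hℓM : ¬ ℓ ∣ M)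
    (q : ℕ) [NeZero q] (hq : q.Prime) (hqN : q ∣ N')
    (x₀ : LaurentSeries ℤ) (hord : x₀.order = -1) (hlead : x₀.coeff (-1) = 1)
    (hmem : coeffMap (Int.castRingHom K) x₀ ∈ modularFunctionFieldFullC K N')
    (N₀ D₀ : ℤ[X]) (hN : N₀.Monic) (hD : D₀.Monic) (hdeg : D₀.natDegree < N₀.natDegree)
    (hid : jqModC ℤ * aeval x₀ D₀ = aeval x₀ N₀) (hD0 : D₀.coeff 0 = 0)
    (hu : IsUnit ((N₀.coeff 0 : ℤ) : O))
    (V : Subring (FM K N')) (hV : V ≤ h1V O M N' q hqN) (hxV : coordM K N' x₀ hmem ∈ V) :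
    (∀ v ∈ V, algebraMap O (FM K N') π * v ∈ chart O (coordM K N' x₀ hmem) →
        v ∈ chart O (coordM K N' x₀ hmem)) ∧
    (∀ v ∈ V, algebraMap O (FM K N') π * v ∈ chart O (coordM K N' x₀ hmem)⁻¹ →
        v ∈ chart O (coordM K N' x₀ hmem)⁻¹) ∧
    (∀ v ∈ V, algebraMap O (FM K N') π * v ∈
        chart₁₂ O (coordM K N' x₀ hmem) (coordM K N' x₀ hmem)⁻¹ →
        v ∈ chart₁₂ O (coordM K N' x₀ hmem) (coordM K N' x₀ hmem)⁻¹) := by
  obtain ⟨u, hu'⟩ := hu
  exact Fermat.Agent.S18x.Qepo.H2.h2sat_of_identity (O := O)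
    (F := ↥(modularFunctionFieldFullC K N')) (jbFull K N') (coordM K N' x₀ hmem)
    (N₀.map (Int.castRingHom O)) (D₀.map (Int.castRingHom O)) V
    (transcendental_coordM_O O N' x₀ hord hlead hmem) π hπ.prime (hN.map _) (hD.map _)
    (by rw [hN.natDegree_map, hD.natDegree_map]; exact hdeg)
    (Fermat.Agent.S18x.IG.H10.h10_identity_coordM O N' x₀ hmem N₀ D₀ hid)
    (by rw [coeff_map, hD0, map_zero])
    ((u⁻¹ : Oˣ) : O)
    (by rw [coeff_map, eq_intCast, ← hu']; exact Units.inv_mul u)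
    hxV
    (h1_satJ O π hπ M N' hMN ℓ hℓM q hq hqN V hV)

open Fermat.Agent.S18x.IG.H10 in
include hπ in
/-- **(SAT) × 3 at level `N'`, coordinate of level `2`** (residue characteristic `ℓ ≠ 2`). -/
theorem h1_sat_coord2 (hMN : M ∣ N') (ℓ : ℕ) [Fact ℓ.Prime] [CharP (Kp O) ℓ] (hℓM : ¬ ℓ ∣ M)
    (hℓ2 : ℓ ≠ 2) (q : ℕ) [NeZero q] (hq : q.Prime) (hqN : q ∣ N') (hN2 : 2 ∣ N')
    (V : Subring (FM K N')) (hV : V ≤ h1V O M N' q hqN) (hxV : coord2 K N' hN2 ∈ V) :
    (∀ v ∈ V, algebraMap O (FM K N') π * v ∈ chart O (coord2 K N' hN2) →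
        v ∈ chart O (coord2 K N' hN2)) ∧
    (∀ v ∈ V, algebraMap O (FM K N') π * v ∈ chart O (coord2 K N' hN2)⁻¹ →
        v ∈ chart O (coord2 K N' hN2)⁻¹) ∧
    (∀ v ∈ V, algebraMap O (FM K N') π * v ∈
        chart₁₂ O (coord2 K N' hN2) (coord2 K N' hN2)⁻¹ →
        v ∈ chart₁₂ O (coord2 K N' hN2) (coord2 K N' hN2)⁻¹) :=
  h1_sat_coordM O π hπ M N' hMN ℓ hℓM q hq hqN h2 order_h2 coeff_h2_neg_one
    (h2_mem_full K N' hN2) h10_N2 h10_D2
    h10_N2_monic h10_D2_monic (by rw [h10_natDegree_D2, h10_natDegree_N2]; norm_num)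
    h10_identity_two h10_coeff_zero_D2
    (h10_isUnit_intCast O ℓ 16777216 (h10_not_dvd_two_pow Fact.out hℓ2) _
      (by rw [h10_coeff_zero_N2]; rfl))
    V hV hxV

open Fermat.Agent.S18x.IG.H10 in
include hπ in
/-- **(SAT) × 3 at level `N'`, coordinate of level `3`** (residue characteristic `ℓ ≠ 3`). -/
theorem h1_sat_coord3 (hMN : M ∣ N') (ℓ : ℕ) [Fact ℓ.Prime] [CharP (Kp O) ℓ] (hℓM : ¬ ℓ ∣ M)
    (hℓ3 : ℓ ≠ 3) (q : ℕ) [NeZero q] (hq : q.Prime) (hqN : q ∣ N') (hN3 : 3 ∣ N')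
    (V : Subring (FM K N')) (hV : V ≤ h1V O M N' q hqN) (hxV : coord3 K N' hN3 ∈ V) :
    (∀ v ∈ V, algebraMap O (FM K N') π * v ∈ chart O (coord3 K N' hN3) →
        v ∈ chart O (coord3 K N' hN3)) ∧
    (∀ v ∈ V, algebraMap O (FM K N') π * v ∈ chart O (coord3 K N' hN3)⁻¹ →
        v ∈ chart O (coord3 K N' hN3)⁻¹) ∧
    (∀ v ∈ V, algebraMap O (FM K N') π * v ∈
        chart₁₂ O (coord3 K N' hN3) (coord3 K N' hN3)⁻¹ →
        v ∈ chart₁₂ O (coord3 K N' hN3) (coord3 K N' hN3)⁻¹) :=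
  h1_sat_coordM O π hπ M N' hMN ℓ hℓM q hq hqN h3 order_h3 coeff_h3_neg_one
    (h3_mem_full K N' hN3) h10_N3 h10_D3
    h10_N3_monic h10_D3_monic (by rw [h10_natDegree_D3, h10_natDegree_N3]; norm_num)
    h10_identity_three h10_coeff_zero_D3
    (h10_isUnit_intCast O ℓ 387420489 (h10_not_dvd_three_pow Fact.out hℓ3) _
      (by rw [h10_coeff_zero_N3]; rfl))
    V hV hxV

end V

end Fermat.Agent.S34x.Sat.H1
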