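import Mathlib
import Fermat.Agent.S34x.Sat.H21_SatAbs

/-!
# S34 / package SAT (helper21): comparison of the Gauss rings of `j` and of a Hauptmodul `x`

`R` a commutative ring, `l : R` a prime element, `F` a field, `x j : F` with a Hauptmodul
identity `j * D(x) = N(x)`, `N D : R[X]` monic, `deg D < deg N`.  Then
`R[j]_(l) ≤ R[x]_(l)` (`h21_locFrac_le_of_identity`): the homogenisation
`f ↦ ∑ f_i N^i D^(n-i)` sends a polynomial not divisible by `l` to a polynomial not divisible
by `l` (look at the coefficient of degree `m deg N + (n - m) deg D`, `m` the largest index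
with `l ∤ f_m`).

Consequently integrality over `R[j]_(l)` implies integrality over `R[x]_(l)`
(`h21_int_of_identity`).
-/

set_option autoImplicit false
set_option linter.unusedSectionVars false
set_option linter.style.haveILetI false

open Polynomial

namespace Fermat.Agent.S34x.Sat.H21

open Fermat.Agent.S28.Alg

section Hom

variable {R : Type*} [CommRing R]

/-- The homogenisation `∑_{i ≤ n} f_i N^i D^(n-i)`. -/
noncomputable def h21_hom (N D : R[X]) (n : ℕ) (f : R[X]) : R[X] :=
  ∑ i ∈ Finset.range (n + 1), C (f.coeff i) * N ^ i * D ^ (n - i)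

theorem h21_aeval_hom {F : Type*} [Field F] [Algebra R F] (N D : R[X]) {x j : F}
    (hid : j * aeval x D = aeval x N) (n : ℕ) (f : R[X]) (hn : f.natDegree ≤ n) :
    aeval x (h21_hom N D n f) = (aeval x D) ^ n * aeval j f := by
  rw [h21_hom, map_sum, aeval_eq_sum_range' (Nat.lt_succ_of_le hn), Finset.mul_sum]
  refine Finset.sum_congr rfl fun i hi => ?_
  have hin : i ≤ n := Nat.lt_succ_iff.mp (Finset.mem_range.mp hi)
  rw [map_mul, map_mul, map_pow, map_pow, aeval_C, ← hid, Algebra.smul_def, mul_pow]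
  have h1 : (aeval x D) ^ n = (aeval x D) ^ i * (aeval x D) ^ (n - i) := by
    rw [← pow_add, Nat.add_sub_cancel' hin]
  rw [h1]
  ring

theorem h21_natDegree_term (N D : R[X]) (hN : N.Monic) (hD : D.Monic) (i k : ℕ) :
    (N ^ i * D ^ k).natDegree = i * N.natDegree + k * D.natDegree := by
  rw [(hN.pow i).natDegree_mul (hD.pow k), hN.natDegree_pow, hD.natDegree_pow]

theorem h21_deg_lt (dN dD i m n : ℕ) (hdeg : dD < dN) (hlt : i < m) (hmn : m ≤ n) :
    i * dN + (n - i) * dD < m * dN + (n - m) * dD := by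
  obtain ⟨k, rfl⟩ := Nat.exists_eq_add_of_lt hlt
  obtain ⟨r, rfl⟩ := Nat.exists_eq_add_of_le hmn
  have e1 : i + k + 1 + r - i = k + 1 + r := by omega
  have e2 : i + k + 1 + r - (i + k + 1) = r := by omega
  rw [e1, e2]
  have h3 : (k + 1) * dD < (k + 1) * dN :=
    (Nat.mul_lt_mul_left (Nat.succ_pos k)).mpr hdeg
  nlinarith [h3]

theorem h21_not_dvd_hom (l : R) (N D : R[X]) (hN : N.Monic) (hD : D.Monic)
    (hdeg : D.natDegree < N.natDegree) (n : ℕ) (f : R[X]) (hn : f.natDegree ≤ n)
    (hf : ¬ C l ∣ f) : ¬ C l ∣ h21_hom N D n f := by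
  classical
  rw [C_dvd_iff_dvd_coeff] at hf
  rw [not_forall] at hf
  obtain ⟨i₁, hi₁⟩ := hf
  have hi₁n : i₁ ≤ f.natDegree := by
    by_contra h
    rw [not_le] at h
    rw [coeff_eq_zero_of_natDegree_lt h] at hi₁
    exact hi₁ (dvd_zero l)
  set m := Nat.findGreatest (fun i => ¬ l ∣ f.coeff i) f.natDegree with hm
  have hPm : ¬ l ∣ f.coeff m := Nat.findGreatest_spec (P := fun i => ¬ l ∣ f.coeff i) hi₁n hi₁
  have hmle : m ≤ f.natDegree := Nat.findGreatest_le _
  have hmn : m ≤ n := hmle.trans hn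
  have hgt : ∀ k, m < k → l ∣ f.coeff k := by
    intro k hk
    by_cases hkn : k ≤ f.natDegree
    · have := Nat.findGreatest_is_greatest (P := fun i => ¬ l ∣ f.coeff i) hk hkn
      simpa using this
    · rw [coeff_eq_zero_of_natDegree_lt (not_le.mp hkn)]
      exact dvd_zero l
  intro hdvd
  rw [C_dvd_iff_dvd_coeff] at hdvd
  have h0 := hdvd (m * N.natDegree + (n - m) * D.natDegree)
  rw [h21_hom, finsetSum_coeff] at h0
  have hmem : m ∈ Finset.range (n + 1) := Finset.mem_range.mpr (Nat.lt_succ_of_le hmn)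
  rw [← Finset.add_sum_erase _ _ hmem] at h0
  have hrest : l ∣ ∑ i ∈ (Finset.range (n + 1)).erase m,
      (C (f.coeff i) * N ^ i * D ^ (n - i)).coeff (m * N.natDegree + (n - m) * D.natDegree) := by
    refine Finset.dvd_sum fun i hi => ?_
    rw [Finset.mem_erase, Finset.mem_range] at hi
    obtain ⟨hne, hin⟩ := hi
    rw [mul_assoc, coeff_C_mul]
    rcases lt_or_gt_of_ne hne with hlt | hgt'
    · -- `i < m`: the degree is too small
      have hdlt : (N ^ i * D ^ (n - i)).natDegree <
          m * N.natDegree + (n - m) * D.natDegree := by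
        rw [h21_natDegree_term N D hN hD]
        exact h21_deg_lt _ _ i m n hdeg hlt hmn
      rw [coeff_eq_zero_of_natDegree_lt hdlt, mul_zero]
      exact dvd_zero l
    · exact Dvd.dvd.mul_right (hgt i hgt') _
  have hmain : (C (f.coeff m) * N ^ m * D ^ (n - m)).coeff
      (m * N.natDegree + (n - m) * D.natDegree) = f.coeff m := by
    rw [mul_assoc, coeff_C_mul, ← h21_natDegree_term N D hN hD,
      ((hN.pow m).mul (hD.pow (n - m))).coeff_natDegree, mul_one]
  rw [hmain] at h0
  exact hPm ((dvd_add_left hrest).mp h0)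

end Hom

section Cmp

variable {R F : Type*} [CommRing R] [Field F] [Algebra R F]

/-- **(GC)**: a Hauptmodul identity `j * D(x) = N(x)` (`N`, `D` monic, `deg D < deg N`) gives
`R[j]_(l) ≤ R[x]_(l)`. -/
theorem h21_locFrac_le_of_identity (l : R) (hl : Prime l) {x j : F} (N D : R[X])
    (hN : N.Monic) (hD : D.Monic) (hdeg : D.natDegree < N.natDegree)
    (hid : j * aeval x D = aeval x N) :
    h21_locFrac l hl j ≤ h21_locFrac l hl x := by
  rintro c ⟨a, b, hb, h⟩
  set n := max a.natDegree b.natDegree with hn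
  have han : a.natDegree ≤ n := le_max_left _ _
  have hbn : b.natDegree ≤ n := le_max_right _ _
  refine ⟨h21_hom N D n a, h21_hom N D n b, h21_not_dvd_hom l N D hN hD hdeg n b hbn hb, ?_⟩
  rw [h21_aeval_hom N D hid n b hbn, h21_aeval_hom N D hid n a han, ← h]
  ring

/-- Integrality over a subring is monotone in the subring. -/
theorem h21_int_mono {A A' : Subring F} (h : A ≤ A') {y : F} (hy : IsIntegral A y) :
    IsIntegral A' y := by
  obtain ⟨p, hp, hcoeff, hz⟩ := (h21_isIntegral_subring_iff A y).mp hy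
  exact (h21_isIntegral_subring_iff A' y).mpr ⟨p, hp, fun i => h (hcoeff i), hz⟩

/-- Integrality over `R[j]_(l)` implies integrality over `R[x]_(l)`. -/
theorem h21_int_of_identity (l : R) (hl : Prime l) {x j : F} (N D : R[X])
    (hN : N.Monic) (hD : D.Monic) (hdeg : D.natDegree < N.natDegree)
    (hid : j * aeval x D = aeval x N) {y : F} (hy : IsIntegral (h21_locFrac l hl j) y) :
    IsIntegral (h21_locFrac l hl x) y :=
  h21_int_mono (h21_locFrac_le_of_identity l hl N D hN hD hdeg hid) hy

/-- The same over `R[1/x]_(l)`. -/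
theorem h21_int_of_identity_inv (l : R) (hl : Prime l) {x j : F} (hx : x ≠ 0) (N D : R[X])
    (hN : N.Monic) (hD : D.Monic) (hdeg : D.natDegree < N.natDegree)
    (hid : j * aeval x D = aeval x N) {y : F} (hy : IsIntegral (h21_locFrac l hl j) y) :
    IsIntegral (h21_locFrac l hl x⁻¹) y := by
  rw [h21_locFrac_inv l hl hx]
  exact h21_int_of_identity l hl N D hN hD hdeg hid hy

end Cmp

end Fermat.Agent.S34x.Sat.H21
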