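import Mathlib
import Fermat.Agent.S34x.Sat.H21_GaussCmp
import Fermat.Agent.S34x.Sat.H21_SatCoord
import Fermat.Agent.S34x.Comp.H8_BetaM
import Fermat.Agent.S18x.IG.H29_Coord
import Fermat.Agent.S18x.IG.H29_CoordInv

/-!
# S34 / package SAT (helper21): the Gauss ring of the Hauptmodul `x`, instance level

`K` a field of characteristic `0`, `O : ValuationSubring K` a discrete valuation ring with
uniformiser `π` and residue characteristic `ℓ ∤ M`, `M ∣ N`, `x = coordM K N x₀ hmem` a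
coordinate with integral `q`-expansion (`coord2`, `coord3`) lying in `F_M`.

* `h21_hunit_coordM` : `b(x)` is a unit of the Gauss valuation ring for `b ∈ O[X]`, `π ∤ b`;
* `h21_locFrac_coordM_le_gauss` : `O[x]_(π) ≤ gaussValM O M` (level `M`);
* `h21_locFrac_coordM_le_V` (`hGV` of helper8's `h8_fracV` at `x`) : `O[x]_(π) ≤ V` for every
  subring `V` of `F_N` containing `F_M ∩ (Gauss ring)`; `h21_locFrac_coordM_inv_le_V` for
  `x⁻¹`;
* `h21_int_coordM` (`hint` of `h8_fracV` at `x`) : every element of a subring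
  `V ≤ ⟨F_M ∩ (Gauss ring), j(q^p)⟩` is integral over `O[x]_(π)`; `h21_int_coordM_inv` for
  `x⁻¹`;
* the instances `coord2`, `coord3`.
-/

set_option autoImplicit false
set_option linter.unusedSectionVars false
set_option linter.unusedVariables false
set_option linter.style.haveILetI false
set_option synthInstance.maxHeartbeats 400000
set_option maxHeartbeats 1000000

open ModularCurve Polynomial

noncomputable section

namespace Fermat.Agent.S34x.Sat.H21

open Fermat.Agent.S18x.Dict.H20 Fermat.Agent.S18x.Spec.H26 Fermat.Agent.S28.Asm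
  Fermat.Agent.S18x.IG.H29 Fermat.Agent.S18x.IG.H28 Fermat.Agent.S18x.IG.H10
  Fermat.Agent.S18x.Qepo Fermat.Agent.S34x.Comp.H8

section Level

variable {K : Type} [Field K] [CharZero K] (O : ValuationSubring K)
  [IsDiscreteValuationRing O] (π : O) (hπ : Irreducible π) (M : ℕ) [NeZero M]
  [Algebra O (FM K M)] [IsScalarTower O K (FM K M)]
  (x₀ : LaurentSeries ℤ) (hord : x₀.order = -1) (hlead : x₀.coeff (-1) = 1)
  (hmem : coeffMap (Int.castRingHom K) x₀ ∈ modularFunctionFieldFullC K M)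

/-- The coordinate, as an element of the Gauss valuation ring. -/
def h21_xM : gaussValM O M := ⟨coordM K M x₀ hmem, coordM_mem_gaussValM O M x₀ hmem⟩

/-- The value of a polynomial at `x`, inside the Gauss valuation ring. -/
theorem h21_eval_coe (b : O[X]) :
    ((b.eval₂ (h8Miota O M) (h21_xM O M x₀ hmem) : gaussValM O M) : FM K M) =
      aeval (coordM K M x₀ hmem) b := by
  have h1 : ((b.eval₂ (h8Miota O M) (h21_xM O M x₀ hmem) : gaussValM O M) : FM K M) =
      (gaussValM O M).subtype (b.eval₂ (h8Miota O M) (h21_xM O M x₀ hmem)) := rfl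
  rw [h1, Polynomial.hom_eval₂, aeval_def]
  rfl

/-- The reduction of `b(x)`. -/
theorem h21_red_eval (b : O[X]) :
    gaussRedM O M (b.eval₂ (h8Miota O M) (h21_xM O M x₀ hmem)) =
      aeval (gaussRedM O M ⟨coordM K M x₀ hmem, coordM_mem_gaussValM O M x₀ hmem⟩)
        (b.map (IsLocalRing.residue O)) := by
  rw [Polynomial.hom_eval₂, aeval_def, Polynomial.eval₂_map]
  congr 1
  refine RingHom.ext fun c => ?_
  show gaussRedM O M ⟨algebraMap O (FM K M) c, hOV_gaussValM O M c⟩ = _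
  rw [gaussRedM_algebraMap_O]
  show _ = algebraMap (IsLocalRing.ResidueField O) (LaurentSeries (IsLocalRing.ResidueField O))
    (IsLocalRing.residue O c)
  rw [algebraMap_laurentSeries_eq_single, HahnSeries.C_apply]

include hπ hord hlead in
/-- **(hunit) at the Hauptmodul**: `b(x)` is a unit of the Gauss valuation ring. -/
theorem h21_hunit_coordM (b : O[X]) (hb : ¬ (C π ∣ b)) :
    aeval (coordM K M x₀ hmem) b ≠ 0 ∧ (aeval (coordM K M x₀ hmem) b)⁻¹ ∈ gaussValM O M := by
  have hred : gaussRedM O M (b.eval₂ (h8Miota O M) (h21_xM O M x₀ hmem)) ≠ 0 := by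
    rw [h21_red_eval]
    intro h0
    exact h8M_map_ne_zero O π hπ b hb
      ((transcendental_iff_injective.mp
        (transcendental_gaussRedM_coordM O M x₀ hord hlead hmem)) (by rw [h0, map_zero]))
  have hunit : IsUnit (b.eval₂ (h8Miota O M) (h21_xM O M x₀ hmem)) :=
    (isUnit_iff_gaussRedM_ne_zero O M).mpr hred
  obtain ⟨v, hv⟩ := hunit
  have h1 : aeval (coordM K M x₀ hmem) b * ((v⁻¹ : (gaussValM O M)ˣ) : gaussValM O M) = 1 := by
    have := congrArg (Subtype.val) (v.mul_inv)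
    rw [hv] at this
    rw [← h21_eval_coe]
    exact this
  refine ⟨left_ne_zero_of_mul_eq_one h1, ?_⟩
  have h2 : (aeval (coordM K M x₀ hmem) b)⁻¹ = ((v⁻¹ : (gaussValM O M)ˣ) : gaussValM O M) :=
    inv_eq_of_mul_eq_one_right h1
  rw [h2]
  exact Subtype.property _

include hord hlead in
/-- `O[x]_(π)` is contained in the Gauss valuation ring (level `M`). -/
theorem h21_locFrac_coordM_le_gauss :
    h21_locFrac π hπ.prime (coordM K M x₀ hmem) ≤ (gaussValM O M).toSubring := by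
  rintro c ⟨a, b, hb, h⟩
  obtain ⟨hb0, hbinv⟩ := h21_hunit_coordM O π hπ M x₀ hord hlead hmem b hb
  have hc : c = aeval (coordM K M x₀ hmem) a * (aeval (coordM K M x₀ hmem) b)⁻¹ := by
    rw [← h, mul_assoc, mul_inv_cancel₀ hb0, mul_one]
  rw [hc]
  refine (gaussValM O M).mul_mem _ _ ?_ hbinv
  rw [← h21_eval_coe]
  exact Subtype.property _

end Level

section TwoLevels

variable {K : Type} [Field K] [CharZero K] (O : ValuationSubring K)
  [IsDiscreteValuationRing O] (π : O) (hπ : Irreducible π)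
  (M N : ℕ) [NeZero M] [NeZero N] (hMN : M ∣ N)
  [Algebra O (FM K M)] [IsScalarTower O K (FM K M)]
  [Algebra O (FM K N)] [IsScalarTower O K (FM K N)]
  (x₀ : LaurentSeries ℤ) (hord : x₀.order = -1) (hlead : x₀.coeff (-1) = 1)
  (hmemM : coeffMap (Int.castRingHom K) x₀ ∈ modularFunctionFieldFullC K M)
  (hmem : coeffMap (Int.castRingHom K) x₀ ∈ modularFunctionFieldFullC K N)

include hMN hord hlead hmemM in
/-- **(hGV) at the Hauptmodul**: `O[x]_(π) ≤ V` for every subring `V` of `F_N` containing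
`F_M ∩ (Gauss ring)` (`x` a coordinate lying in `F_M`). -/
theorem h21_locFrac_coordM_le_V (V : Subring (FM K N))
    (hVM : ∀ y : FM K N, (y : LaurentSeries K) ∈ modularFunctionFieldFullC K M →
      (y : LaurentSeries K) ∈ gaussRing O → y ∈ V) :
    h21_locFrac π hπ.prime (coordM K N x₀ hmem) ≤ V := by
  rintro c ⟨a, b, hb, h⟩
  obtain ⟨hb0, hbinv⟩ := h21_hunit_coordM O π hπ M x₀ hord hlead hmemM b hb
  have hx : h21_incl O M N hMN (coordM K M x₀ hmemM) = coordM K N x₀ hmem := Subtype.ext rfl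
  have ha' : h21_incl O M N hMN (aeval (coordM K M x₀ hmemM) a) =
      aeval (coordM K N x₀ hmem) a := by
    rw [← aeval_algHom_apply, hx]
  have hb' : h21_incl O M N hMN (aeval (coordM K M x₀ hmemM) b) =
      aeval (coordM K N x₀ hmem) b := by
    rw [← aeval_algHom_apply, hx]
  have hbN0 : aeval (coordM K N x₀ hmem) b ≠ 0 := by
    rw [← hb']
    exact (map_ne_zero_iff _ (h21_incl O M N hMN).toRingHom.injective).mpr hb0
  set cM : FM K M :=
    aeval (coordM K M x₀ hmemM) a * (aeval (coordM K M x₀ hmemM) b)⁻¹ with hcM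
  have hcMV : cM ∈ gaussValM O M := by
    refine (gaussValM O M).mul_mem _ _ ?_ hbinv
    rw [← h21_eval_coe]
    exact Subtype.property _
  have hc : c = h21_incl O M N hMN cM := by
    have h3 : h21_incl O M N hMN cM * aeval (coordM K N x₀ hmem) b =
        aeval (coordM K N x₀ hmem) a := by
      rw [← hb', ← map_mul, hcM, mul_assoc, inv_mul_cancel₀ hb0, mul_one, ha']
    exact mul_right_cancel₀ hbN0 (h.trans h3.symm)
  rw [hc]
  refine hVM _ ?_ ?_
  · rw [h21_incl_coe]
    exact cM.2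
  · rw [h21_incl_coe]
    exact hcMV

include hMN hord hlead hmemM in
/-- **(hGV) at the inverse of the Hauptmodul.** -/
theorem h21_locFrac_coordM_inv_le_V (V : Subring (FM K N))
    (hVM : ∀ y : FM K N, (y : LaurentSeries K) ∈ modularFunctionFieldFullC K M →
      (y : LaurentSeries K) ∈ gaussRing O → y ∈ V) :
    h21_locFrac π hπ.prime (coordM K N x₀ hmem)⁻¹ ≤ V := by
  rw [h21_locFrac_inv π hπ.prime (coordM_ne_zero K N x₀ hlead hmem)]
  exact h21_locFrac_coordM_le_V O π hπ M N hMN x₀ hord hlead hmemM hmem V hVM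

include hMN hπ in
/-- **(hint) at the Hauptmodul**: every element of a subring
`V ≤ ⟨F_M ∩ (Gauss ring), j(q^p)⟩` is integral over `O[x]_(π)`, for a coordinate `x`
satisfying a Hauptmodul identity over `ℤ`. -/
theorem h21_int_coordM
    (N₀ D₀ : ℤ[X]) (hN : N₀.Monic) (hD : D₀.Monic) (hdeg : D₀.natDegree < N₀.natDegree)
    (hid : jqModC ℤ * aeval x₀ D₀ = aeval x₀ N₀)
    (ℓ : ℕ) [Fact ℓ.Prime] [CharP (IsLocalRing.ResidueField O) ℓ] (hℓM : ¬ ℓ ∣ M)
    (V : Subring (FM K N)) (hV : V ≤ Subring.closure (h21_gens O M N)) :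
    ∀ v ∈ V, IsIntegral (h21_locFrac π hπ.prime (coordM K N x₀ hmem)) v := by
  intro v hv
  exact h21_int_of_identity π hπ.prime
    (N₀.map (Int.castRingHom O)) (D₀.map (Int.castRingHom O)) (hN.map _) (hD.map _)
    (by rw [hN.natDegree_map, hD.natDegree_map]; exact hdeg)
    (h10_identity_coordM O N x₀ hmem N₀ D₀ hid)
    (h21_int_gen O π hπ M N hMN ℓ hℓM v (hV hv))

include hMN hπ hord hlead in
/-- **(hint) at the inverse of the Hauptmodul.** -/
theorem h21_int_coordM_inv
    (N₀ D₀ : ℤ[X]) (hN : N₀.Monic) (hD : D₀.Monic) (hdeg : D₀.natDegree < N₀.natDegree)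
    (hid : jqModC ℤ * aeval x₀ D₀ = aeval x₀ N₀)
    (ℓ : ℕ) [Fact ℓ.Prime] [CharP (IsLocalRing.ResidueField O) ℓ] (hℓM : ¬ ℓ ∣ M)
    (V : Subring (FM K N)) (hV : V ≤ Subring.closure (h21_gens O M N)) :
    ∀ v ∈ V, IsIntegral (h21_locFrac π hπ.prime (coordM K N x₀ hmem)⁻¹) v := by
  rw [h21_locFrac_inv π hπ.prime (coordM_ne_zero K N x₀ hlead hmem)]
  exact h21_int_coordM O π hπ M N hMN x₀ hmem N₀ D₀ hN hD hdeg hid ℓ hℓM V hV

end TwoLevels

section Inst

variable {K : Type} [Field K] [CharZero K] (O : ValuationSubring K)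
  [IsDiscreteValuationRing O] (π : O) (hπ : Irreducible π)
  (M N : ℕ) [NeZero M] [NeZero N] (hMN : M ∣ N)
  [Algebra O (FM K M)] [IsScalarTower O K (FM K M)]
  [Algebra O (FM K N)] [IsScalarTower O K (FM K N)]
  (ℓ : ℕ) [Fact ℓ.Prime] [CharP (IsLocalRing.ResidueField O) ℓ] (hℓM : ¬ ℓ ∣ M)
  (V : Subring (FM K N))

include hMN hπ hℓM

/-- **(hGV), (hint) for the level-`2` Hauptmodul and its inverse** (`2 ∣ M`): the four
hypotheses of helper8's `h8_fracV` at `x := coord2`, `x := coord2⁻¹`. -/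
theorem h21_fracInputs_coord2 (hM2 : 2 ∣ M)
    (hVM : ∀ y : FM K N, (y : LaurentSeries K) ∈ modularFunctionFieldFullC K M →
      (y : LaurentSeries K) ∈ gaussRing O → y ∈ V)
    (hV : V ≤ Subring.closure (h21_gens O M N)) :
    (h21_locFrac π hπ.prime (coord2 K N (hM2.trans hMN)) ≤ V ∧
      ∀ v ∈ V, IsIntegral (h21_locFrac π hπ.prime (coord2 K N (hM2.trans hMN))) v) ∧
    (h21_locFrac π hπ.prime (coord2 K N (hM2.trans hMN))⁻¹ ≤ V ∧
      ∀ v ∈ V, IsIntegral (h21_locFrac π hπ.prime (coord2 K N (hM2.trans hMN))⁻¹) v) :=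
  ⟨⟨h21_locFrac_coordM_le_V O π hπ M N hMN h2 order_h2 coeff_h2_neg_one
      (h2_mem_full K M hM2) (h2_mem_full K N (hM2.trans hMN)) V hVM,
    h21_int_coordM O π hπ M N hMN h2 (h2_mem_full K N (hM2.trans hMN)) h10_N2 h10_D2
      h10_N2_monic h10_D2_monic (by rw [h10_natDegree_D2, h10_natDegree_N2]; norm_num)
      h10_identity_two ℓ hℓM V hV⟩,
   ⟨h21_locFrac_coordM_inv_le_V O π hπ M N hMN h2 order_h2 coeff_h2_neg_one
      (h2_mem_full K M hM2) (h2_mem_full K N (hM2.trans hMN)) V hVM,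
    h21_int_coordM_inv O π hπ M N hMN h2 order_h2 coeff_h2_neg_one
      (h2_mem_full K N (hM2.trans hMN)) h10_N2 h10_D2
      h10_N2_monic h10_D2_monic (by rw [h10_natDegree_D2, h10_natDegree_N2]; norm_num)
      h10_identity_two ℓ hℓM V hV⟩⟩

/-- **(hGV), (hint) for the level-`3` Hauptmodul and its inverse** (`3 ∣ M`). -/
theorem h21_fracInputs_coord3 (hM3 : 3 ∣ M)
    (hVM : ∀ y : FM K N, (y : LaurentSeries K) ∈ modularFunctionFieldFullC K M →
      (y : LaurentSeries K) ∈ gaussRing O → y ∈ V)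
    (hV : V ≤ Subring.closure (h21_gens O M N)) :
    (h21_locFrac π hπ.prime (coord3 K N (hM3.trans hMN)) ≤ V ∧
      ∀ v ∈ V, IsIntegral (h21_locFrac π hπ.prime (coord3 K N (hM3.trans hMN))) v) ∧
    (h21_locFrac π hπ.prime (coord3 K N (hM3.trans hMN))⁻¹ ≤ V ∧
      ∀ v ∈ V, IsIntegral (h21_locFrac π hπ.prime (coord3 K N (hM3.trans hMN))⁻¹) v) :=
  ⟨⟨h21_locFrac_coordM_le_V O π hπ M N hMN h3 order_h3 coeff_h3_neg_one
      (h3_mem_full K M hM3) (h3_mem_full K N (hM3.trans hMN)) V hVM,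
    h21_int_coordM O π hπ M N hMN h3 (h3_mem_full K N (hM3.trans hMN)) h10_N3 h10_D3
      h10_N3_monic h10_D3_monic (by rw [h10_natDegree_D3, h10_natDegree_N3]; norm_num)
      h10_identity_three ℓ hℓM V hV⟩,
   ⟨h21_locFrac_coordM_inv_le_V O π hπ M N hMN h3 order_h3 coeff_h3_neg_one
      (h3_mem_full K M hM3) (h3_mem_full K N (hM3.trans hMN)) V hVM,
    h21_int_coordM_inv O π hπ M N hMN h3 order_h3 coeff_h3_neg_one
      (h3_mem_full K N (hM3.trans hMN)) h10_N3 h10_D3
      h10_N3_monic h10_D3_monic (by rw [h10_natDegree_D3, h10_natDegree_N3]; norm_num)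
      h10_identity_three ℓ hℓM V hV⟩⟩

end Inst

end Fermat.Agent.S34x.Sat.H21
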