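import Mathlib
import Fermat.Agent.S34x.Sat.H21_SatCoord
import Fermat.Agent.S34x.Val.H2_TwoValPoly

/-!
# S34 / package SAT (helper21): the three saturation statements for `V = V_M[j_q]`

The two-component ring of stage (A) is `V := Val.H2.h2A W x = W[x]` (helper2), with
`W = gaussValM O M : ValuationSubring F_M`, `F = F_N` (`M ∣ N`, in the application `N = M q`)
and `x = j(q^p)`, `p` prime, `p ∣ N` (in the application `p = q`), for ANY algebra structure
`Algebra F_M F_N` which is the inclusion on the underlying Laurent series (`halg`).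

* `h21_h2A_le` : `W[x] ≤ S` as soon as `S` contains the image of `W` and `x` (abstract);
* `h21_V_le_gens` : `V ≤ ⟨F_M ∩ (Gauss ring), j(q^p)⟩`;
* `h21_coordM_mem_V`, `h21_j_mem_V` : the Hauptmodul coordinate of level dividing `M`, and `j`,
  lie in `V`;
* `h21_satV_coordM`, `h21_satV_coord2`, `h21_satV_coord3`, `h21_satV_j` : `hsat₁`, `hsat₂`,
  `hsat₁₂` of `Spec.H26.h26_spec` / `Loc.H26.h26_ss_pow` VERBATIM for `V` and the charts of the
  coordinate.
-/

set_option autoImplicit false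
set_option linter.unusedSectionVars false
set_option linter.unusedVariables false
set_option linter.style.haveILetI false
set_option synthInstance.maxHeartbeats 400000
set_option maxHeartbeats 1000000

open ModularCurve Polynomial

noncomputable section

namespace Fermat.Agent.S34x.Sat.H21

open Fermat.Agent.S18x.Dict.H20 Fermat.Agent.S18x.Spec.H26 Fermat.Agent.S28.Asm
  Fermat.Agent.S18x.IG.H29 Fermat.Agent.S18x.IG.H28 Fermat.Agent.S18x.IG.H10
  Fermat.Agent.S18x.Qepo Fermat.Agent.S34x.Val.H2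

section Abs

variable {F₀ F : Type*} [Field F₀] [Field F] [Algebra F₀ F]

/-- `W[x] ≤ S` as soon as `S` contains the image of `W` and `x`. -/
theorem h21_h2A_le (W : ValuationSubring F₀) (x : F) (S : Subring F)
    (hW : ∀ w ∈ W, algebraMap F₀ F w ∈ S) (hx : x ∈ S) : h2A W x ≤ S := by
  rintro _ ⟨P, rfl⟩
  show h2ev W x P ∈ S
  induction P using Polynomial.induction_on' with
  | add p r hp hr =>
    rw [map_add]
    exact S.add_mem hp hr
  | monomial n a =>
    rw [← C_mul_X_pow_eq_monomial, map_mul, map_pow, h2ev_C, h2ev_X]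
    exact S.mul_mem (hW _ a.2) (S.pow_mem hx n)

end Abs

variable {K : Type} [Field K] [CharZero K] (O : ValuationSubring K)
  [IsDiscreteValuationRing O] (M N : ℕ) [NeZero M] [NeZero N] (hMN : M ∣ N)
  [Algebra O (FM K M)] [IsScalarTower O K (FM K M)]
  [Algebra O (FM K N)] [IsScalarTower O K (FM K N)]
  [Algebra (FM K M) (FM K N)]
  (halg : ∀ w : FM K M,
    ((algebraMap (FM K M) (FM K N) w : FM K N) : LaurentSeries K) = (w : LaurentSeries K))
  (p : ℕ) [NeZero p] (hp : p.Prime) (hpN : p ∣ N)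

include halg hp

/-- `V = V_M[j(q^p)]` is contained in the subring generated by `F_M ∩ (Gauss ring)` and the
`j(q^p)`. -/
theorem h21_V_le_gens :
    h2A (gaussValM O M) (jbdFull K N p hpN) ≤ Subring.closure (h21_gens O M N) := by
  refine h21_h2A_le _ _ _ (fun w hw => ?_) ?_
  · refine Subring.subset_closure (Or.inl ⟨?_, ?_⟩)
    · rw [halg w]
      exact w.2
    · rw [halg w]
      exact hw
  · exact Subring.subset_closure (Or.inr ⟨p, inferInstance, hp, hpN, rfl⟩)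

omit hp in
/-- The image of an element of `F_M ∩ (Gauss ring)` lies in `V`. -/
theorem h21_mem_V_of_levelM (y : FM K N)
    (hyM : (y : LaurentSeries K) ∈ modularFunctionFieldFullC K M)
    (hyV : (y : LaurentSeries K) ∈ gaussRing O) :
    y ∈ h2A (gaussValM O M) (jbdFull K N p hpN) := by
  have h1 : algebraMap (FM K M) (FM K N) (⟨(y : LaurentSeries K), hyM⟩ : FM K M) = y :=
    Subtype.ext (halg _)
  rw [← h1]
  exact h2_algebraMap_mem (gaussValM O M) (jbdFull K N p hpN) hyV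

omit hp in
/-- A coordinate with integral `q`-expansion lying in `F_M` lies in `V`. -/
theorem h21_coordM_mem_V (x₀ : LaurentSeries ℤ)
    (hmemM : coeffMap (Int.castRingHom K) x₀ ∈ modularFunctionFieldFullC K M)
    (hmem : coeffMap (Int.castRingHom K) x₀ ∈ modularFunctionFieldFullC K N) :
    coordM K N x₀ hmem ∈ h2A (gaussValM O M) (jbdFull K N p hpN) :=
  h21_mem_V_of_levelM O M N halg p hpN _ hmemM (coordM_mem_gaussValM O N x₀ hmem)

omit hp in
/-- `j ∈ V`. -/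
theorem h21_j_mem_V : jbFull K N ∈ h2A (gaussValM O M) (jbdFull K N p hpN) :=
  h21_mem_V_of_levelM O M N halg p hpN _ (jqModC_mem_full K M) (j_mem_gaussRing O)

include hMN

/-- **(SAT) for `V = V_M[j(q^p)]` and the `j`-charts.** -/
theorem h21_satV_j (π₀ : O) (hπ₀ : Irreducible π₀) (ℓ : ℕ) [Fact ℓ.Prime]
    [CharP (IsLocalRing.ResidueField O) ℓ] (hℓM : ¬ ℓ ∣ M) :
    (∀ v ∈ h2A (gaussValM O M) (jbdFull K N p hpN),
      algebraMap O (FM K N) π₀ * v ∈ chart O (jbFull K N) → v ∈ chart O (jbFull K N)) ∧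
    (∀ v ∈ h2A (gaussValM O M) (jbdFull K N p hpN),
      algebraMap O (FM K N) π₀ * v ∈ chart O (jbFull K N)⁻¹ → v ∈ chart O (jbFull K N)⁻¹) ∧
    (∀ v ∈ h2A (gaussValM O M) (jbdFull K N p hpN),
      algebraMap O (FM K N) π₀ * v ∈ chart₁₂ O (jbFull K N) (jbFull K N)⁻¹ →
        v ∈ chart₁₂ O (jbFull K N) (jbFull K N)⁻¹) :=
  ⟨h21_sat_inst₁ O π₀ hπ₀ M N hMN ℓ hℓM _ (h21_V_le_gens O M N halg p hp hpN),
    h21_sat_inst₂ O π₀ hπ₀ M N hMN ℓ hℓM _ (h21_V_le_gens O M N halg p hp hpN),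
    h21_sat_inst₁₂ O π₀ hπ₀ M N hMN ℓ hℓM _ (h21_V_le_gens O M N halg p hp hpN)
      (h21_j_mem_V O M N halg p hpN)⟩

/-- **(SAT) for `V = V_M[j(q^p)]`, generic coordinate** (Hauptmodul identity over `ℤ`, the
coordinate lies in `F_M`). -/
theorem h21_satV_coordM (x₀ : LaurentSeries ℤ) (hord : x₀.order = -1)
    (hlead : x₀.coeff (-1) = 1)
    (hmemM : coeffMap (Int.castRingHom K) x₀ ∈ modularFunctionFieldFullC K M)
    (hmem : coeffMap (Int.castRingHom K) x₀ ∈ modularFunctionFieldFullC K N)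
    (N₀ D₀ : ℤ[X]) (hN : N₀.Monic) (hD : D₀.Monic) (hdeg : D₀.natDegree < N₀.natDegree)
    (hid : jqModC ℤ * aeval x₀ D₀ = aeval x₀ N₀) (hD0 : D₀.coeff 0 = 0)
    (hu : IsUnit ((N₀.coeff 0 : ℤ) : O))
    (π₀ : O) (hπ₀ : Irreducible π₀) (ℓ : ℕ) [Fact ℓ.Prime]
    [CharP (IsLocalRing.ResidueField O) ℓ] (hℓM : ¬ ℓ ∣ M) :
    (∀ v ∈ h2A (gaussValM O M) (jbdFull K N p hpN),
      algebraMap O (FM K N) π₀ * v ∈ chart O (coordM K N x₀ hmem) →
        v ∈ chart O (coordM K N x₀ hmem)) ∧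
    (∀ v ∈ h2A (gaussValM O M) (jbdFull K N p hpN),
      algebraMap O (FM K N) π₀ * v ∈ chart O (coordM K N x₀ hmem)⁻¹ →
        v ∈ chart O (coordM K N x₀ hmem)⁻¹) ∧
    (∀ v ∈ h2A (gaussValM O M) (jbdFull K N p hpN),
      algebraMap O (FM K N) π₀ * v ∈
        chart₁₂ O (coordM K N x₀ hmem) (coordM K N x₀ hmem)⁻¹ →
        v ∈ chart₁₂ O (coordM K N x₀ hmem) (coordM K N x₀ hmem)⁻¹) :=
  h21_sat_coordN O M N hMN x₀ hord hlead hmem N₀ D₀ hN hD hdeg hid hD0 hu π₀ hπ₀ ℓ hℓM _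
    (h21_V_le_gens O M N halg p hp hpN) (h21_coordM_mem_V O M N halg p hpN x₀ hmemM hmem)

/-- **(SAT) for `V = V_M[j(q^p)]` and the level-`2` Hauptmodul** (`2 ∣ M`, residue
characteristic `ℓ ∤ M`). -/
theorem h21_satV_coord2 (hM2 : 2 ∣ M) (π₀ : O) (hπ₀ : Irreducible π₀) (ℓ : ℕ)
    [Fact ℓ.Prime] [CharP (IsLocalRing.ResidueField O) ℓ] (hℓM : ¬ ℓ ∣ M) :
    (∀ v ∈ h2A (gaussValM O M) (jbdFull K N p hpN),
      algebraMap O (FM K N) π₀ * v ∈ chart O (coord2 K N (hM2.trans hMN)) →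
        v ∈ chart O (coord2 K N (hM2.trans hMN))) ∧
    (∀ v ∈ h2A (gaussValM O M) (jbdFull K N p hpN),
      algebraMap O (FM K N) π₀ * v ∈ chart O (coord2 K N (hM2.trans hMN))⁻¹ →
        v ∈ chart O (coord2 K N (hM2.trans hMN))⁻¹) ∧
    (∀ v ∈ h2A (gaussValM O M) (jbdFull K N p hpN),
      algebraMap O (FM K N) π₀ * v ∈
        chart₁₂ O (coord2 K N (hM2.trans hMN)) (coord2 K N (hM2.trans hMN))⁻¹ →
        v ∈ chart₁₂ O (coord2 K N (hM2.trans hMN)) (coord2 K N (hM2.trans hMN))⁻¹) :=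
  h21_sat_coord2 O M N hMN (hM2.trans hMN) π₀ hπ₀ ℓ hℓM (fun h => hℓM (h ▸ hM2)) _
    (h21_V_le_gens O M N halg p hp hpN)
    (h21_coordM_mem_V O M N halg p hpN h2 (h2_mem_full K M hM2) (h2_mem_full K N (hM2.trans hMN)))

/-- **(SAT) for `V = V_M[j(q^p)]` and the level-`3` Hauptmodul** (`3 ∣ M`, residue
characteristic `ℓ ∤ M`). -/
theorem h21_satV_coord3 (hM3 : 3 ∣ M) (π₀ : O) (hπ₀ : Irreducible π₀) (ℓ : ℕ)
    [Fact ℓ.Prime] [CharP (IsLocalRing.ResidueField O) ℓ] (hℓM : ¬ ℓ ∣ M) :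
    (∀ v ∈ h2A (gaussValM O M) (jbdFull K N p hpN),
      algebraMap O (FM K N) π₀ * v ∈ chart O (coord3 K N (hM3.trans hMN)) →
        v ∈ chart O (coord3 K N (hM3.trans hMN))) ∧
    (∀ v ∈ h2A (gaussValM O M) (jbdFull K N p hpN),
      algebraMap O (FM K N) π₀ * v ∈ chart O (coord3 K N (hM3.trans hMN))⁻¹ →
        v ∈ chart O (coord3 K N (hM3.trans hMN))⁻¹) ∧
    (∀ v ∈ h2A (gaussValM O M) (jbdFull K N p hpN),
      algebraMap O (FM K N) π₀ * v ∈
        chart₁₂ O (coord3 K N (hM3.trans hMN)) (coord3 K N (hM3.trans hMN))⁻¹ →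
        v ∈ chart₁₂ O (coord3 K N (hM3.trans hMN)) (coord3 K N (hM3.trans hMN))⁻¹) :=
  h21_sat_coord3 O M N hMN (hM3.trans hMN) π₀ hπ₀ ℓ hℓM (fun h => hℓM (h ▸ hM3)) _
    (h21_V_le_gens O M N halg p hp hpN)
    (h21_coordM_mem_V O M N halg p hpN h3 (h3_mem_full K M hM3) (h3_mem_full K N (hM3.trans hMN)))

end Fermat.Agent.S34x.Sat.H21
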